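import Mathlib
import Fermat.Agent.Tate.LogVal

set_option autoImplicit false

/-!
# Points near the node of `(y - α x)(y - β x) = x³ + a₄ x + a₆` (all residue characteristics)

helper3, S58 (U): port of the S05 nodal analysis (`Tate/NodePoint`) to the general nodal normal
form.  Over a field `K` with valuation subring `A` and a `ℚ`-valued log-valuation: `α, β ∈ A`,
`δ := α - β` a unit, `0 < n := w a₆`, `a₄ = 0 ∨ n ≤ w a₄`.  A point `(x, y)` with `x ∈ 𝔪` is
described by `a = y - α x`, `b = y - β x` with `b - a = δ x`, `a b = x³ + a₄ x + a₆`; it is of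
exactly one of the types `Mid`, `Plus`, `Minus`.
-/

namespace Fermat.Agent.TateG

open Fermat.Agent.Tate

variable {K : Type*} [Field K] {A : ValuationSubring K}

/-- parameters of the general nodal normal form `(y - α x)(y - β x) = x³ + a₄ x + a₆` -/
structure NodeCtxG (K : Type*) [Field K] (A : ValuationSubring K) where
  /-- the log valuation -/
  L : LogVal A
  /-- slope of the first branch -/
  α : K
  /-- slope of the second branch -/
  β : K
  /-- coefficient `a₄` -/
  a₄ : K
  /-- coefficient `a₆` -/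
  a₆ : K
  α_mem : α ∈ A
  β_mem : β ∈ A
  δ_ne' : α - β ≠ 0
  δ_unit' : L.w (α - β) = 0
  a₆_ne : a₆ ≠ 0
  a₆_pos : 0 < L.w a₆
  a₄_le : a₄ = 0 ∨ L.w a₆ ≤ L.w a₄

namespace NodeCtxG

variable (C : NodeCtxG K A)

/-- the valuation of the discriminant -/
def n : ℚ := C.L.w C.a₆

theorem n_pos : 0 < C.n := C.a₆_pos

/-- the difference of the slopes of the two branches -/
def δ : K := C.α - C.β

theorem δ_ne : C.δ ≠ 0 := C.δ_ne'

theorem w_δ : C.L.w C.δ = 0 := C.δ_unit'

theorem w_δ_mul {x : K} (hx : x ≠ 0) : C.L.w (C.δ * x) = C.L.w x := by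
  rw [C.L.map_mul C.δ_ne hx]
  rw [C.w_δ, zero_add]

/-- the right hand side `x³ + a₄ x + a₆` -/
def R (x : K) : K := x ^ 3 + C.a₄ * x + C.a₆

/-- `R x` has valuation `n` when `x` is deep. -/
theorem R_deep {x : K} (hx : x = 0 ∨ C.n ≤ 2 * C.L.w x) (hx0 : x = 0 ∨ 0 < C.L.w x) :
    C.R x ≠ 0 ∧ C.L.w (C.R x) = C.n := by
  rcases eq_or_ne x 0 with rfl | hne
  · simp [R, C.a₆_ne, n]
  have hx1 : C.n ≤ 2 * C.L.w x := hx.resolve_left hne
  have hx2 : 0 < C.L.w x := hx0.resolve_left hne
  have hn := C.n_pos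
  -- `x³ + a₄ x` is small
  have h3 : x ^ 3 ≠ 0 := pow_ne_zero 3 hne
  have hw3 : C.L.w (x ^ 3) = 3 * C.L.w x := by
    rw [C.L.map_pow hne]; norm_num
  have hsmall : (x ^ 3 + C.a₄ * x = 0) ∨ C.n < C.L.w (x ^ 3 + C.a₄ * x) := by
    by_cases h0 : x ^ 3 + C.a₄ * x = 0
    · exact Or.inl h0
    right
    rcases eq_or_ne C.a₄ 0 with h4 | h4
    · rw [h4, zero_mul, add_zero, hw3]; linarith
    have h4x : C.a₄ * x ≠ 0 := mul_ne_zero h4 hne
    have hw4 : C.n ≤ C.L.w C.a₄ := C.a₄_le.resolve_left h4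
    have hw4x : C.L.w (C.a₄ * x) = C.L.w C.a₄ + C.L.w x := C.L.map_mul h4 hne
    have := C.L.le_map_add h3 h4x h0
    have hmin : C.n < min (C.L.w (x ^ 3)) (C.L.w (C.a₄ * x)) := by
      rw [lt_min_iff]; constructor <;> linarith
    exact lt_of_lt_of_le hmin this
  have hR : C.R x = C.a₆ + (x ^ 3 + C.a₄ * x) := by rw [R]; ring
  rw [hR]
  exact C.L.map_add_of_lt C.a₆_ne hsmall

/-- `R x` is small compared with `x²` when `x` is shallow. -/
theorem R_shallow {x : K} (hne : x ≠ 0) (hpos : 0 < C.L.w x) (hx : 2 * C.L.w x < C.n) :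
    C.R x = 0 ∨ 2 * C.L.w x < C.L.w (C.R x) := by
  by_cases h0 : C.R x = 0
  · exact Or.inl h0
  right
  have h3 : x ^ 3 ≠ 0 := pow_ne_zero 3 hne
  have hw3 : C.L.w (x ^ 3) = 3 * C.L.w x := by
    rw [C.L.map_pow hne]; norm_num
  -- general principle: a sum of terms each of valuation `> c` has valuation `> c`
  have key : ∀ u v : K, (u = 0 ∨ 2 * C.L.w x < C.L.w u) → (v = 0 ∨ 2 * C.L.w x < C.L.w v) →
      (u + v = 0 ∨ 2 * C.L.w x < C.L.w (u + v)) := by
    intro u v hu hv
    by_cases huv : u + v = 0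
    · exact Or.inl huv
    right
    rcases eq_or_ne u 0 with rfl | hu0
    · rw [zero_add] at huv ⊢; exact hv.resolve_left huv
    rcases eq_or_ne v 0 with rfl | hv0
    · rw [add_zero]; exact hu.resolve_left hu0
    have := C.L.le_map_add hu0 hv0 huv
    have h1 := hu.resolve_left hu0
    have h2 := hv.resolve_left hv0
    exact lt_of_lt_of_le (lt_min h1 h2) this
  have t1 : x ^ 3 = 0 ∨ 2 * C.L.w x < C.L.w (x ^ 3) := Or.inr (by rw [hw3]; linarith)
  have t2 : C.a₄ * x = 0 ∨ 2 * C.L.w x < C.L.w (C.a₄ * x) := by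
    rcases eq_or_ne C.a₄ 0 with h4 | h4
    · left; rw [h4, zero_mul]
    right
    have hw4 : C.n ≤ C.L.w C.a₄ := C.a₄_le.resolve_left h4
    rw [C.L.map_mul h4 hne]
    linarith
  have t3 : C.a₆ = 0 ∨ 2 * C.L.w x < C.L.w C.a₆ := Or.inr hx
  have := key _ _ (key _ _ t1 t2) t3
  exact this.resolve_left h0

/-- data of a point near the node: `a = y - α x`, `b = y - β x`. -/
structure NearPt (x a b : K) : Prop where
  hx : x ∈ A.nonunits
  hab : b - a = C.δ * x
  hprod : a * b = C.R x

/-- middle component -/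
structure Mid (x a b : K) : Prop where
  hx : x = 0 ∨ C.n ≤ 2 * C.L.w x
  ha : a ≠ 0
  hb : b ≠ 0
  hwa : C.L.w a = C.n / 2
  hwb : C.L.w b = C.n / 2

/-- `+` branch at depth `w x` -/
structure Plus (x a b : K) : Prop where
  hx0 : x ≠ 0
  hx : 2 * C.L.w x < C.n
  hb : b ≠ 0
  hwb : C.L.w b = C.L.w x
  ha : a = 0 ∨ C.L.w x < C.L.w a

/-- `-` branch at depth `n - w x` -/
structure Minus (x a b : K) : Prop where
  hx0 : x ≠ 0
  hx : 2 * C.L.w x < C.n
  ha : a ≠ 0
  hwa : C.L.w a = C.L.w x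
  hb : b = 0 ∨ C.L.w x < C.L.w b

variable {C}

theorem NearPt.pos {x a b : K} (h : C.NearPt x a b) : x = 0 ∨ 0 < C.L.w x := by
  rcases eq_or_ne x 0 with h0 | h0
  · exact Or.inl h0
  · exact Or.inr (C.L.pos_of_mem_nonunits h0 h.hx)

/-- classification of points near the node -/
theorem NearPt.classify {x a b : K} (h : C.NearPt x a b) :
    C.Mid x a b ∨ C.Plus x a b ∨ C.Minus x a b := by
  have hn := C.n_pos
  by_cases hdeep : x = 0 ∨ C.n ≤ 2 * C.L.w x
  · left
    obtain ⟨hR0, hRw⟩ := C.R_deep hdeep h.pos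
    rw [← h.hprod] at hR0 hRw
    have ha : a ≠ 0 := left_ne_zero_of_mul hR0
    have hb : b ≠ 0 := right_ne_zero_of_mul hR0
    have hsum : C.L.w a + C.L.w b = C.n := by rw [← hRw]; exact (C.L.map_mul ha hb).symm
    -- the difference `b - a` is deep
    have hd : (C.δ * x = 0) ∨ C.n / 2 ≤ C.L.w (C.δ * x) := by
      rcases eq_or_ne x 0 with rfl | hx0
      · left; ring
      · right; rw [C.w_δ_mul hx0]
        have := hdeep.resolve_left hx0
        linarith
    have hba : b = a + C.δ * x := by rw [← h.hab]; ring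
    have hab' : a = b + -(C.δ * x) := by rw [← h.hab]; ring
    -- neither valuation can be `< n/2`
    have h1 : C.n / 2 ≤ C.L.w a := by
      by_contra hlt
      push Not at hlt
      have : C.L.w b = C.L.w a := by
        rw [hba]
        refine (C.L.map_add_of_lt ha ?_).2
        rcases hd with hd | hd
        · exact Or.inl hd
        · exact Or.inr (lt_of_lt_of_le hlt hd)
      linarith
    have h2 : C.n / 2 ≤ C.L.w b := by
      by_contra hlt
      push Not at hlt
      have : C.L.w a = C.L.w b := by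
        rw [hab']
        refine (C.L.map_add_of_lt hb ?_).2
        rcases hd with hd | hd
        · left; rw [hd, neg_zero]
        · right; rw [C.L.map_neg]; exact lt_of_lt_of_le hlt hd
      linarith
    exact ⟨hdeep, ha, hb, by linarith, by linarith⟩
  · right
    push Not at hdeep
    obtain ⟨hx0, hlt⟩ := hdeep
    have hpos : 0 < C.L.w x := h.pos.resolve_left hx0
    have hd0 : C.δ * x ≠ 0 := mul_ne_zero C.δ_ne hx0
    have hdw : C.L.w (C.δ * x) = C.L.w x := C.w_δ_mul hx0
    have hba : b = a + C.δ * x := by rw [← h.hab]; ring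
    have hab' : a = b + -(C.δ * x) := by rw [← h.hab]; ring
    rcases eq_or_ne a 0 with ha0 | ha0
    · left
      refine ⟨hx0, hlt, ?_, ?_, Or.inl ha0⟩
      · rw [hba, ha0, zero_add]; exact hd0
      · rw [hba, ha0, zero_add]; exact hdw
    rcases eq_or_ne b 0 with hb0 | hb0
    · right
      refine ⟨hx0, hlt, ha0, ?_, Or.inl hb0⟩
      rw [hab', hb0, zero_add, C.L.map_neg]; exact hdw
    -- both nonzero
    have hR0 : C.R x ≠ 0 := by rw [← h.hprod]; exact mul_ne_zero ha0 hb0
    have hRw : 2 * C.L.w x < C.L.w (C.R x) := (C.R_shallow hx0 hpos hlt).resolve_left hR0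
    have hsum : C.L.w a + C.L.w b = C.L.w (C.R x) := by
      rw [← h.hprod]; exact (C.L.map_mul ha0 hb0).symm
    rcases lt_trichotomy (C.L.w a) (C.L.w b) with hlt' | heq | hgt
    · -- `w a < w b`: then `w (b - a) = w a`, so `w a = w x`: minus branch
      right
      have h1 : C.L.w (C.δ * x) = C.L.w a := by
        rw [← h.hab, sub_eq_add_neg, add_comm]
        have := (C.L.map_add_of_lt (neg_ne_zero.mpr ha0)
          (Or.inr (by rw [C.L.map_neg]; exact hlt') : b = 0 ∨ C.L.w (-a) < C.L.w b)).2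
        rw [C.L.map_neg] at this
        exact this
      refine ⟨hx0, hlt, ha0, by rw [← h1, hdw], Or.inr ?_⟩
      rw [hdw] at h1
      linarith
    · -- equal valuations: impossible
      exfalso
      have h1 : min (C.L.w b) (C.L.w (-a)) ≤ C.L.w (b + -a) := by
        apply C.L.le_map_add hb0 (neg_ne_zero.mpr ha0)
        rw [← sub_eq_add_neg, h.hab]; exact hd0
      rw [← sub_eq_add_neg, h.hab, hdw, C.L.map_neg, ← heq, min_self] at h1
      linarith
    · -- `w b < w a`: plus branch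
      left
      have h1 : C.L.w (C.δ * x) = C.L.w b := by
        rw [← h.hab, sub_eq_add_neg]
        exact (C.L.map_add_of_lt hb0
          (Or.inr (by rw [C.L.map_neg]; exact hgt) : -a = 0 ∨ C.L.w b < C.L.w (-a))).2
      refine ⟨hx0, hlt, hb0, by rw [← h1, hdw], Or.inr ?_⟩
      rw [hdw] at h1
      linarith

end NodeCtxG

end Fermat.Agent.TateG
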