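import Mathlib
import Fermat.Agent.Tate.NodeTorsion
import Fermat.Agent.Tate.Chord
import Fermat.Agent.TateG.NodeSum_helper3

set_option autoImplicit false
set_option linter.unusedSectionVars false

/-!
# The component class on Mathlib points of a general nodal model

helper3, S58 (U): port of the first half of `Tate/NodeTorsion`.
`W : (y - α x)(y - β x) = x³ + a₄ x + a₆` (`NodeCtxG.IsModel`). `depthPt` is additive modulo `n` on
integral points (`depthPt_add`); it takes values in `[0, n)` and vanishes exactly away from the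
node.
-/

namespace Fermat.Agent.TateG

open Fermat.Agent.Tate WeierstrassCurve WeierstrassCurve.Affine Polynomial

variable {K : Type*} [Field K] [DecidableEq K] {A : ValuationSubring K}

namespace NodeCtxG

variable (C : NodeCtxG K A)

/-- `W` is the nodal model with the parameters of `C` -/
structure IsModel (W : Affine K) : Prop where
  a₁ : W.a₁ = -(C.α + C.β)
  a₂ : W.a₂ = -(C.α * C.β)
  a₃ : W.a₃ = 0
  a₄ : W.a₄ = C.a₄
  a₆ : W.a₆ = C.a₆

/-- the component class of a point -/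
noncomputable def depthPt {W : Affine K} : W.Point → ℚ
  | .zero => 0
  | .some x y _ => C.depth x (y - C.α * x)

@[simp] theorem depthPt_zero {W : Affine K} : C.depthPt (0 : W.Point) = 0 := rfl

@[simp] theorem depthPt_some {W : Affine K} {x y : K} (h : W.Nonsingular x y) :
    C.depthPt (Point.some x y h) = C.depth x (y - C.α * x) := rfl

variable {C}

theorem IsModel.a₁_mem {W : Affine K} (hM : C.IsModel W) : W.a₁ ∈ A := by
  rw [hM.a₁]; exact neg_mem (A.add_mem _ _ C.α_mem C.β_mem)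

theorem IsModel.a₂_mem {W : Affine K} (hM : C.IsModel W) : W.a₂ ∈ A := by
  rw [hM.a₂]; exact neg_mem (A.mul_mem _ _ C.α_mem C.β_mem)

theorem IsModel.a₃_mem {W : Affine K} (hM : C.IsModel W) : W.a₃ ∈ A := by
  rw [hM.a₃]; exact A.zero_mem

theorem IsModel.negY {W : Affine K} (hM : C.IsModel W) (x y : K) :
    W.negY x y = -y + (C.α + C.β) * x := by
  rw [Affine.negY, hM.a₁, hM.a₃]; ring

theorem IsModel.equation {W : Affine K} (hM : C.IsModel W) {x y : K} (h : W.Equation x y) :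
    (y - C.α * x) * (y - C.β * x) = C.R x := by
  rw [equation_iff, hM.a₁, hM.a₂, hM.a₃, hM.a₄, hM.a₆] at h
  rw [R]
  linear_combination h

theorem IsModel.nearPt {W : Affine K} (hM : C.IsModel W) {x y : K} (h : W.Equation x y)
    (hx : x ∈ A.nonunits) : C.NearPt x (y - C.α * x) (y - C.β * x) :=
  ⟨hx, by rw [δ]; ring, hM.equation h⟩

/-- depth of the negative of a point -/
theorem IsModel.depthPt_neg {W : Affine K} (hM : C.IsModel W) (P : W.Point) :
    ∃ k : ℤ, C.depthPt (-P) = -C.depthPt P + k * C.n := by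
  rcases P with _ | ⟨x, y, h⟩
  · exact ⟨0, by simp [← Point.zero_def]⟩
  rw [Point.neg_some, depthPt_some, depthPt_some]
  simp only [hM.negY]
  by_cases hx : x ∈ A.nonunits
  · have := (hM.nearPt h.1 hx).depth_add_depth_neg
    have e : -(y - C.β * x) = -y + (C.α + C.β) * x - C.α * x := by ring
    rw [e] at this
    exact ⟨1, by push_cast; linarith⟩
  · rw [depth_of_not_mem _ hx, depth_of_not_mem _ hx]
    exact ⟨0, by simp⟩

/-- **additivity of the component class on integral points** -/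
theorem IsModel.depthPt_add {W : Affine K} (hM : C.IsModel W) (P Q : W.Point)
    (hP : IntegralPt A P) (hQ : IntegralPt A Q) (hPQ : IntegralPt A (P + Q)) :
    ∃ k : ℤ, C.depthPt (P + Q) = C.depthPt P + C.depthPt Q + k * C.n := by
  rcases P with _ | ⟨x₁, y₁, h₁⟩
  · exact ⟨0, by simp [← Point.zero_def]⟩
  rcases Q with _ | ⟨x₂, y₂, h₂⟩
  · exact ⟨0, by simp [← Point.zero_def]⟩
  by_cases hxy : x₁ = x₂ ∧ y₁ = W.negY x₂ y₂
  · -- opposite points
    have hsum : Point.some x₁ y₁ h₁ + Point.some x₂ y₂ h₂ = 0 := Point.add_of_Y_eq hxy.1 hxy.2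
    have hneg : Point.some x₁ y₁ h₁ = -Point.some x₂ y₂ h₂ := by
      rw [← add_eq_zero_iff_eq_neg]; exact hsum
    obtain ⟨k, hk⟩ := hM.depthPt_neg (Point.some x₂ y₂ h₂)
    rw [hsum, hneg, hk]
    exact ⟨-k, by push_cast; simp⟩
  obtain ⟨x₃, y₃, h₃, hadd, hy₂, hy₃, hF⟩ := exists_collinear_of_add W h₁ h₂ hxy
  set l := W.slope x₁ x₂ y₁ y₂ with hl
  obtain ⟨E1, E2, E3⟩ := vieta_of_addPolynomial_eq W hF
  -- integrality
  rw [hadd] at hPQ
  rw [Point.neg_some] at hPQ
  obtain ⟨hx₃, -⟩ := hPQ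
  obtain ⟨hx₁, hy₁⟩ := hP
  obtain ⟨hx₂, -⟩ := hQ
  have hlA : l ∈ A := by
    by_contra hlA
    have hc : -W.a₂ - x₁ - x₂ - x₃ ∈ A :=
      sub_mem (sub_mem (sub_mem (neg_mem hM.a₂_mem) hx₁) hx₂) hx₃
    apply sq_add_not_mem hlA hM.a₁_mem hc
    have : l ^ 2 + W.a₁ * l + (-W.a₂ - x₁ - x₂ - x₃) = 0 := by linear_combination -E1
    rw [this]; exact A.zero_mem
  rw [hM.a₁, hM.a₂] at E1
  rw [hM.a₁, hM.a₃, hM.a₄] at E2
  rw [hM.a₃, hM.a₆] at E3
  set μ := y₁ - l * x₁ with hμ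
  have hμA : μ ∈ A := sub_mem hy₁ (A.mul_mem _ _ hlA hx₁)
  have hLD : C.LineData l μ x₁ x₂ x₃ :=
    ⟨hlA, hμA, hx₁, hx₂, hx₃, by rw [E1]; ring, by rw [E2, hμ]; ring, by rw [E3, hμ]; ring⟩
  obtain ⟨k, hk⟩ := hLD.depth_sum
  have e₁ : (l - C.α) * x₁ + μ = y₁ - C.α * x₁ := by rw [hμ]; ring
  have e₂ : (l - C.α) * x₂ + μ = y₂ - C.α * x₂ := by rw [hμ, hy₂]; ring
  have e₃ : (l - C.α) * x₃ + μ = y₃ - C.α * x₃ := by rw [hμ, hy₃]; ring
  rw [e₁, e₂, e₃] at hk
  obtain ⟨k', hk'⟩ := hM.depthPt_neg (Point.some x₃ y₃ h₃)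
  rw [hadd, hk', depthPt_some, depthPt_some, depthPt_some]
  refine ⟨k' - k, ?_⟩
  push_cast
  linarith

end NodeCtxG

end Fermat.Agent.TateG
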