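import Mathlib
import Fermat.Prelude.Def_FLTPrelim_GaloisRep
import Fermat.Agent.Tate.NodeGalois
import Fermat.Agent.TateG.NodeTorsion_helper3

set_option autoImplicit false
set_option linter.unusedSectionVars false

/-!
# Inertia acts unipotently on the torsion of a general nodal model

helper3, S58 (U).  `IsModel.unipotent`: on the nodal model
`(y - α x)(y - β x) = x³ + a₄ x + a₆`, an automorphism `σ` preserving the valuation, fixing the
two branch slopes `α, β`, stabilising `A` and acting trivially modulo `𝔪` satisfies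
`σ (σ Q - Q) = σ Q - Q` for every `m`-torsion point `Q` (`m` odd), provided all `m`-torsion
points are integral (`hR1`).
-/

namespace Fermat.Agent.TateG

open Fermat.Agent.Tate WeierstrassCurve WeierstrassCurve.Affine
open scoped WeierstrassCurve.Affine

variable {K : Type*} [Field K] {A : ValuationSubring K}

namespace NodeCtxG

variable {C : NodeCtxG K A}

/-- the depth of a point near the node lies strictly between `0` and `n` -/
theorem NearPt.depth_pos_lt {x a b : K} (h : C.NearPt x a b) :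
    0 < C.depth x a ∧ C.depth x a < C.n := by
  have hn := C.n_pos
  rcases h.classify with hc | hc | hc
  · rw [hc.depth_eq h.hx]; constructor <;> linarith
  · rw [hc.depth_eq h.hx]
    have := h.pos.resolve_left hc.hx0
    have := hc.hx
    constructor <;> linarith
  · rw [hc.depth_eq h.hx]
    have := h.pos.resolve_left hc.hx0
    have := hc.hx
    constructor <;> linarith

theorem mem_nonunits_iff_w {x : K} : x ∈ A.nonunits ↔ x = 0 ∨ 0 < C.L.w x := by
  constructor
  · intro hx
    rcases eq_or_ne x 0 with h0 | h0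
    · exact Or.inl h0
    · exact Or.inr (C.L.pos_of_mem_nonunits h0 hx)
  · intro hx
    exact C.L.mem_nonunits_of_pos hx

/-- the depth is invariant under a valuation preserving field endomorphism -/
theorem depth_map (σ : K →+* K) (hσw : ∀ x : K, C.L.w (σ x) = C.L.w x) (x a : K) :
    C.depth (σ x) (σ a) = C.depth x a := by
  have h0 : ∀ z : K, σ z = 0 ↔ z = 0 := fun z => map_eq_zero σ
  have h1 : σ x ∈ A.nonunits ↔ x ∈ A.nonunits := by
    rw [mem_nonunits_iff_w (C := C), mem_nonunits_iff_w (C := C), h0, hσw]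
  by_cases hx : x ∈ A.nonunits
  · have hx' := h1.mpr hx
    by_cases hd : x = 0 ∨ C.n ≤ 2 * C.L.w x
    · have hd' : σ x = 0 ∨ C.n ≤ 2 * C.L.w (σ x) := by rwa [h0, hσw]
      rw [depth, depth, if_pos hx', if_pos hx, if_pos hd', if_pos hd]
    · have hd' : ¬ (σ x = 0 ∨ C.n ≤ 2 * C.L.w (σ x)) := by rwa [h0, hσw]
      by_cases ha : a = 0 ∨ C.L.w x < C.L.w a
      · have ha' : σ a = 0 ∨ C.L.w (σ x) < C.L.w (σ a) := by rwa [h0, hσw, hσw]
        rw [depth, depth, if_pos hx', if_pos hx, if_neg hd', if_neg hd, if_pos ha', if_pos ha,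
          hσw]
      · have ha' : ¬ (σ a = 0 ∨ C.L.w (σ x) < C.L.w (σ a)) := by rwa [h0, hσw, hσw]
        rw [depth, depth, if_pos hx', if_pos hx, if_neg hd', if_neg hd, if_neg ha', if_neg ha,
          hσw]
  · have hx' : σ x ∉ A.nonunits := fun h => hx (h1.mp h)
    rw [depth_of_not_mem _ hx, depth_of_not_mem _ hx']

end NodeCtxG

section Galois

variable [DecidableEq K]

/-- away from the node, an integral point of a nodal model has nonsingular reduction -/
theorem NodeCtxG.IsModel.not_partials_mem {C : NodeCtxG K A} {W : Affine K} (hM : C.IsModel W)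
    {x y : K} (hxA : x ∈ A) (hyA : y ∈ A) (hx : x ∉ A.nonunits) (h : W.Equation x y) :
    ¬ (3 * x ^ 2 + 2 * W.a₂ * x + W.a₄ - W.a₁ * y ∈ A.nonunits ∧
      2 * y + W.a₁ * x + W.a₃ ∈ A.nonunits) := by
  rintro ⟨hφ, hψ⟩
  apply hx
  have hid : x ^ 3 = x * (3 * x ^ 2 + 2 * W.a₂ * x + W.a₄ - W.a₁ * y)
      - y * (2 * y + W.a₁ * x + W.a₃) + W.a₄ * x + 2 * W.a₆ - W.a₃ * y := by
    rw [equation_iff] at h
    linear_combination (2 : K) * h
  have h4 : W.a₄ ∈ A.nonunits := by rw [hM.a₄]; exact NodeCtxG.a₄_mem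
  have h6 : W.a₆ ∈ A.nonunits := by rw [hM.a₆]; exact NodeCtxG.a₆_mem
  have ha3 : W.a₃ * y = 0 := by rw [hM.a₃, zero_mul]
  have h3 : x ^ 3 ∈ A.nonunits := by
    rw [hid, ha3, sub_zero]
    exact A.nonunits.add_mem (A.nonunits.add_mem (A.nonunits.sub_mem
      (Tate.mul_mem_nonunits_right hxA hφ) (Tate.mul_mem_nonunits_right hyA hψ))
      (Tate.mul_mem_nonunits_left h4 hxA)) (Tate.mul_mem_nonunits_right NodeCtxG.two_mem h6)
  exact mem_nonunits_of_pow_mem h3

variable {R : Type*} {S : Type*} [CommRing R] [CommRing S] [Algebra R S]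
  [Algebra R K] [Algebra S K] [IsScalarTower R S K]

/-- the depth of a point is invariant under a valuation preserving automorphism fixing `α` -/
theorem NodeCtxG.depthPt_smul {W' : Affine R} (C : NodeCtxG K A) (σ : K ≃ₐ[S] K)
    (hσα : σ C.α = C.α) (hσw : ∀ x : K, C.L.w (σ x) = C.L.w x) (Q : (W'⁄K).Point) :
    C.depthPt (σ • Q) = C.depthPt Q := by
  rcases Q with _ | ⟨x, y, h⟩
  · rfl
  rw [smul_some, NodeCtxG.depthPt_some, NodeCtxG.depthPt_some]
  have e : σ y - C.α * σ x = (σ : K →+* K) (y - C.α * x) := by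
    rw [map_sub, map_mul]
    show σ y - C.α * σ x = σ y - σ C.α * σ x
    rw [hσα]
  rw [e]
  exact NodeCtxG.depth_map (σ : K →+* K) hσw x _

/-- **(U), nodal case**: inertia acts unipotently on the `m`-torsion of a general nodal model. -/
theorem NodeCtxG.IsModel.unipotent (W' : Affine R) (C : NodeCtxG K A) (hM : C.IsModel (W'⁄K))
    {m : ℕ} (hodd : Odd m)
    (hR1 : ∀ {x y : K} (h : (W'⁄K).Nonsingular x y), m • Point.some x y h = 0 → x ∈ A ∧ y ∈ A)
    (σ : K ≃ₐ[S] K) (hσα : σ C.α = C.α) (hσw : ∀ x : K, C.L.w (σ x) = C.L.w x)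
    (hσ : ∀ a ∈ A, σ a ∈ A ∧ σ a - a ∈ A.nonunits)
    (Q : (W'⁄K).Point) (hQ : m • Q = 0) : σ • (σ • Q - Q) = σ • Q - Q := by
  have hn := C.n_pos
  have hσQ : m • (σ • Q) = 0 := nsmul_smul_eq_zero σ hQ
  -- integrality of torsion points
  have hint : ∀ P : (W'⁄K).Point, m • P = 0 → IntegralPt A P := by
    intro P hP
    rcases P with _ | ⟨x, y, h⟩
    · trivial
    · exact hR1 h hP
  set D := σ • Q - Q with hD
  have hDt : m • D = 0 := by rw [hD, smul_sub, hσQ, hQ, sub_zero]
  have hσDt : m • (σ • D) = 0 := nsmul_smul_eq_zero σ hDt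
  -- the depth of `D` vanishes
  have hdepth : C.depthPt D = 0 := by
    have hnegQ : m • (-Q) = 0 := by rw [smul_neg, hQ, neg_zero]
    obtain ⟨k, hk⟩ := hM.depthPt_add (σ • Q) (-Q) (hint _ hσQ) (hint _ hnegQ)
      (by rw [← sub_eq_add_neg]; exact hint _ hDt)
    obtain ⟨k', hk'⟩ := hM.depthPt_neg Q
    rw [← sub_eq_add_neg, ← hD, hk', NodeCtxG.depthPt_smul C σ hσα hσw Q] at hk
    have hk2 : C.depthPt D = ((k + k' : ℤ) : ℚ) * C.n := by push_cast; linarith
    -- `depthPt D ∈ [0, n)`
    have hrange : 0 ≤ C.depthPt D ∧ C.depthPt D < C.n := by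
      rcases hDD : D with _ | ⟨x, y, h⟩
      · exact ⟨le_rfl, hn⟩
      · rw [NodeCtxG.depthPt_some]
        by_cases hx : x ∈ A.nonunits
        · have := (hM.nearPt h.1 hx).depth_pos_lt
          exact ⟨this.1.le, this.2⟩
        · rw [NodeCtxG.depth_of_not_mem _ hx]
          exact ⟨le_rfl, hn⟩
    rw [hk2] at hrange ⊢
    have h1 : (0 : ℚ) ≤ ((k + k' : ℤ) : ℚ) := by
      by_contra hneg
      push Not at hneg
      have := mul_neg_of_neg_of_pos hneg hn
      linarith [hrange.1]
    have h2 : ((k + k' : ℤ) : ℚ) < 1 := by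
      by_contra hge
      push Not at hge
      have : C.n ≤ ((k + k' : ℤ) : ℚ) * C.n := by
        calc C.n = 1 * C.n := (one_mul _).symm
          _ ≤ _ := mul_le_mul_of_nonneg_right hge hn.le
      linarith [hrange.2]
    have h3 : (k + k' : ℤ) = 0 := by
      have h1' : (0 : ℤ) ≤ k + k' := by exact_mod_cast h1
      have h2' : (k + k' : ℤ) < 1 := by exact_mod_cast h2
      omega
    rw [h3]; simp
  -- hence `D` is the origin or is away from the node
  rcases hDD : D with _ | ⟨x, y, h⟩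
  · rfl
  rw [hDD] at hdepth hDt hσDt
  rw [smul_some] at hσDt ⊢
  obtain ⟨hxA, hyA⟩ := hR1 h hDt
  have hx : x ∉ A.nonunits := by
    intro hx
    rw [NodeCtxG.depthPt_some] at hdepth
    have := (hM.nearPt h.1 hx).depth_pos_lt
    linarith [this.1]
  have hred := hM.not_partials_mem hxA hyA hx h.1
  exact eq_of_nonsingular_red hM.a₁_mem hM.a₂_mem hM.a₃_mem hR1 hodd h _ hxA hyA
    (hσ x hxA).2 (hσ y hyA).2 hred hDt hσDt

end Galois

end Fermat.Agent.TateG
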