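import Mathlib
import Fermat.Prelude.Def_FLTPrelim_GaloisRep
import Fermat.Agent.Tate.R1_helper8
import Fermat.Agent.TateG.NodeUnip_helper3

set_option autoImplicit false
set_option linter.unusedSectionVars false

/-!
# Inertia acts unipotently on the torsion of a curve in nodal form: the hypotheses made concrete

helper3, S58 (U).
* `LogVal.w_map_of_fix` : an endomorphism fixing `π` (`w π = 1`) and stabilising `A` preserves `w`;
* `map_eq_of_simple_root` : an endomorphism which is trivial modulo `𝔪` fixes the two roots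
  `α ≢ β` of a quadratic polynomial with fixed coefficients;
* `exists_nodeCtxG` : over an algebraically closed field, a Weierstrass curve with `a₃ = 0`,
  `b₂` a unit, `0 < w a₆ ≤ w a₄` is a nodal model;
* `unipotent_of_nodal_form` : hence `σ (σ Q - Q) = σ Q - Q` for `σ` stabilising `A` and trivial
  modulo `𝔪`, `Q` an `m`-torsion point, `m` odd and a unit of `A`.
-/

namespace Fermat.Agent.TateG

open Fermat.Agent.Tate WeierstrassCurve WeierstrassCurve.Affine
open scoped WeierstrassCurve.Affine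

variable {K : Type*} [Field K] {A : ValuationSubring K}

/-- an endomorphism fixing an element `π` with `w π = 1` and stabilising `A` preserves the
(`ℚ`-valued) valuation -/
theorem LogVal.w_map_of_fix (L : LogVal A) {π : K} (hπ0 : π ≠ 0) (hπ : L.w π = 1)
    (σ : K →+* K) (hσπ : σ π = π) (hσA : ∀ a ∈ A, σ a ∈ A) (x : K) : L.w (σ x) = L.w x := by
  rcases eq_or_ne x 0 with rfl | hx0
  · rw [map_zero]
  have hσx0 : σ x ≠ 0 := (map_ne_zero σ).mpr hx0
  set d : ℕ := (L.w x).den with hd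
  set j : ℤ := (L.w x).num with hj
  have hdpos : (0 : ℚ) < d := Nat.cast_pos.mpr (Rat.den_pos _)
  have hdj : (d : ℚ) * L.w x = j := by
    rw [hd, hj, mul_comm]; exact Rat.mul_den_eq_num _
  have hxd : x ^ d ≠ 0 := pow_ne_zero _ hx0
  have hπj : π ^ j ≠ 0 := zpow_ne_zero _ hπ0
  set u := x ^ d / π ^ j with hu
  have hu0 : u ≠ 0 := div_ne_zero hxd hπj
  have hwu : L.w u = 0 := by
    rw [hu, L.map_div hxd hπj, L.map_pow hx0, L.map_zpow hπ0, hπ, mul_one, hdj, sub_self]
  obtain ⟨huA, huA'⟩ := (L.eq_zero_iff hu0).mp hwu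
  have hσu0 : σ u ≠ 0 := (map_ne_zero σ).mpr hu0
  have hwσu : L.w (σ u) = 0 := by
    rw [L.eq_zero_iff hσu0]
    refine ⟨hσA u huA, ?_⟩
    rw [← map_inv₀]
    exact hσA _ huA'
  have hσu : σ u = σ x ^ d / π ^ j := by
    rw [hu, map_div₀, map_pow, map_zpow₀, hσπ]
  rw [hσu, L.map_div (pow_ne_zero _ hσx0) hπj, L.map_pow hσx0, L.map_zpow hπ0, hπ, mul_one]
    at hwσu
  have h1 : (d : ℚ) * L.w (σ x) = d * L.w x := by rw [hdj]; linarith
  exact mul_left_cancel₀ hdpos.ne' h1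

/-- an endomorphism which is trivial modulo `𝔪` fixes each of two roots `α ≢ β (mod 𝔪)` of a
quadratic polynomial with fixed coefficients -/
theorem map_eq_of_simple_root {α β : K} (σ : K →+* K) (hsum : σ (α + β) = α + β)
    (hprod : σ (α * β) = α * β) (hσ : σ α - α ∈ A.nonunits) (hδ : α - β ∉ A.nonunits) :
    σ α = α := by
  have h0 : (σ α - α) * (σ α - β) = 0 := by
    have e : (σ α - α) * (σ α - β) = σ α * σ α - (α + β) * σ α + α * β := by ring
    rw [e]
    have e2 : σ α * σ α - (α + β) * σ α + α * β = σ (α * α - (α + β) * α + α * β) := by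
      rw [map_add, map_sub, map_mul, map_mul, hsum, hprod]
    rw [e2]
    have e3 : α * α - (α + β) * α + α * β = 0 := by ring
    rw [e3, map_zero]
  rcases mul_eq_zero.mp h0 with h | h
  · exact sub_eq_zero.mp h
  · exfalso
    apply hδ
    have e : α - β = -(σ α - α) := by
      have : σ α = β := sub_eq_zero.mp h
      rw [this]; ring
    rw [e]
    exact A.nonunits.neg_mem hσ

/-- over an algebraically closed field, a Weierstrass curve with `a₃ = 0`, `b₂` a unit and
`0 < w a₆ ≤ w a₄` is a nodal model -/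
theorem exists_nodeCtxG [IsAlgClosed K] (L : LogVal A) (W : Affine K) (h1 : W.a₁ ∈ A)
    (h2 : W.a₂ ∈ A) (h3 : W.a₃ = 0) (hb2 : W.a₁ ^ 2 + 4 * W.a₂ ∉ A.nonunits)
    (h6 : W.a₆ ≠ 0) (h6pos : 0 < L.w W.a₆) (h4 : W.a₄ = 0 ∨ L.w W.a₆ ≤ L.w W.a₄) :
    ∃ C : NodeCtxG K A, C.L = L ∧ C.IsModel W := by
  classical
  -- a root of `T² + a₁ T - a₂`
  obtain ⟨α, hα⟩ := IsAlgClosed.exists_root
    (Polynomial.X ^ 2 + Polynomial.C W.a₁ * Polynomial.X - Polynomial.C W.a₂) (by
      have hdeg : (Polynomial.X ^ 2 + Polynomial.C W.a₁ * Polynomial.X - Polynomial.C W.a₂ :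
          Polynomial K).degree = 2 := by
        compute_degree!
      rw [hdeg]; norm_num)
  have hα' : α ^ 2 + W.a₁ * α - W.a₂ = 0 := by
    simpa [Polynomial.IsRoot] using hα
  set β := -W.a₁ - α with hβ
  have hsum : α + β = -W.a₁ := by rw [hβ]; ring
  have hprod : α * β = -W.a₂ := by rw [hβ]; linear_combination -hα'
  have hαA : α ∈ A := by
    by_contra hαA
    apply sq_add_not_mem hαA h1 (neg_mem h2)
    have : α ^ 2 + W.a₁ * α + -W.a₂ = 0 := by linear_combination hα'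
    rw [this]; exact A.zero_mem
  have hβA : β ∈ A := by rw [hβ]; exact sub_mem (neg_mem h1) hαA
  have hsq : (α - β) ^ 2 = W.a₁ ^ 2 + 4 * W.a₂ := by
    have : (α - β) ^ 2 = (α + β) ^ 2 - 4 * (α * β) := by ring
    rw [this, hsum, hprod]; ring
  have hδA : α - β ∈ A := sub_mem hαA hβA
  have hδu : α - β ∉ A.nonunits := by
    intro h
    apply hb2
    rw [← hsq]
    exact pow_mem_nonunits h (by norm_num)
  have hδ0 : α - β ≠ 0 := by
    intro h
    exact hδu (h ▸ A.nonunits.zero_mem)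
  refine ⟨{ L := L, α := α, β := β, a₄ := W.a₄, a₆ := W.a₆, α_mem := hαA, β_mem := hβA,
            δ_ne' := hδ0, δ_unit' := L.eq_zero_of_unit hδA hδu, a₆_ne := h6, a₆_pos := h6pos,
            a₄_le := h4 }, rfl, ?_⟩
  exact { a₁ := by show W.a₁ = -(α + β); rw [hsum]; ring
          a₂ := by show W.a₂ = -(α * β); rw [hprod]; ring
          a₃ := h3
          a₄ := rfl
          a₆ := rfl }

section Galois

variable [DecidableEq K] {R : Type*} {S : Type*} [CommRing R] [CommRing S] [Algebra R S]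
  [Algebra R K] [Algebra S K] [IsScalarTower R S K]

/-- **(U), curve in nodal form**: `W'` a Weierstrass curve over `R` whose base change to the
algebraically closed valued field `K` has `a₃ = 0`, `a₁, a₂ ∈ A`, `b₂` a unit and
`0 < w a₆ ≤ w a₄`; `q` a natural number with `w q = 1`.  Every `S`-automorphism `σ` of `K`
stabilising `A` and acting trivially modulo `𝔪` acts unipotently on the `m`-torsion, `m` odd and
a unit of `A`. -/
theorem unipotent_of_nodal_form [IsAlgClosed K] [CharZero K] (W' : Affine R) (L : LogVal A)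
    {q : ℕ} (hq0 : q ≠ 0) (hL : L.w (q : K) = 1)
    (h1 : (W'⁄K).a₁ ∈ A) (h2 : (W'⁄K).a₂ ∈ A) (h3 : (W'⁄K).a₃ = 0)
    (hb2 : (W'⁄K).a₁ ^ 2 + 4 * (W'⁄K).a₂ ∉ A.nonunits)
    (h6 : (W'⁄K).a₆ ≠ 0) (h6pos : 0 < L.w (W'⁄K).a₆)
    (h4 : (W'⁄K).a₄ = 0 ∨ L.w (W'⁄K).a₆ ≤ L.w (W'⁄K).a₄)
    {m : ℕ} (hodd : Odd m) (hm : ((m : K))⁻¹ ∈ A)
    (σ : K ≃ₐ[S] K) (hσ : ∀ a ∈ A, σ a ∈ A ∧ σ a - a ∈ A.nonunits)
    (Q : (W'⁄K).Point) (hQ : m • Q = 0) : σ • (σ • Q - Q) = σ • Q - Q := by
  obtain ⟨C, hCL, hM⟩ := exists_nodeCtxG L (W'⁄K) h1 h2 h3 hb2 h6 h6pos h4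
  have hqK : (q : K) ≠ 0 := Nat.cast_ne_zero.mpr hq0
  have hm0 : m ≠ 0 := fun h => by
    rw [h] at hodd
    exact absurd hodd (by decide)
  -- the curve is integral
  have h4A : (W'⁄K).a₄ ∈ A := by
    rcases h4 with h | h
    · rw [h]; exact A.zero_mem
    · refine L.mem_of_nonneg (Or.inr ?_)
      linarith
  have h6A : (W'⁄K).a₆ ∈ A := L.mem_of_nonneg (Or.inr h6pos.le)
  have hW : IsIntegralCurve A (W'⁄K) :=
    ⟨h1, h2, by rw [h3]; exact A.zero_mem, h4A, h6A⟩
  have hR1 : ∀ {x y : K} (h : (W'⁄K).Nonsingular x y), m • Point.some x y h = 0 →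
      x ∈ A ∧ y ∈ A := fun h ht => mem_of_nsmul_eq_zero' hW hm0 hm h ht
  -- `σ` preserves the valuation
  have hσw : ∀ x : K, C.L.w (σ x) = C.L.w x := by
    intro x
    rw [hCL]
    exact LogVal.w_map_of_fix L hqK hL (σ : K →+* K) (map_natCast σ q)
      (fun a ha => (hσ a ha).1) x
  -- `σ` fixes the coefficients
  have hfix : ∀ r : R, σ (algebraMap R K r) = algebraMap R K r := by
    intro r
    rw [IsScalarTower.algebraMap_apply R S K]
    exact σ.commutes _
  have hσ1 : σ (W'⁄K).a₁ = (W'⁄K).a₁ := hfix _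
  have hσ2 : σ (W'⁄K).a₂ = (W'⁄K).a₂ := hfix _
  -- `σ` fixes `α`
  have hσα : σ C.α = C.α := by
    refine map_eq_of_simple_root (A := A) (β := C.β) (σ : K →+* K) ?_ ?_
      (hσ C.α C.α_mem).2 ?_
    · have e : C.α + C.β = -(W'⁄K).a₁ := by rw [hM.a₁]; ring
      rw [e, map_neg]
      exact congrArg Neg.neg hσ1
    · have e : C.α * C.β = -(W'⁄K).a₂ := by rw [hM.a₂]; ring
      rw [e, map_neg]
      exact congrArg Neg.neg hσ2
    · intro h
      have := C.L.pos_of_mem_nonunits C.δ_ne' h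
      rw [C.δ_unit'] at this
      exact lt_irrefl _ this
  exact hM.unipotent W' C hodd hR1 σ hσα hσw hσ Q hQ

end Galois

end Fermat.Agent.TateG
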